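import Fermat.Agent.S17.H.Abs

/-! # S17/H blueprint, layer 0: absolute values, Nullstellensatz bounds, linear algebra, polynomials
Statements only (never import this file from a proof file). -/

set_option autoImplicit false

noncomputable section

open scoped Classical

namespace Fermat.Agent.S17.H.WIP

open Fermat.Agent.S17.H MvPolynomial

/-! ## Block ABS -/

theorem exists_absFam : Nonempty AbsFam := sorry

variable (𝔳 : AbsFam)

theorem finite_av_ne_one {x : Qb} (hx : x ≠ 0) : {v | 𝔳.av v x ≠ 1}.Finite := sorry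

/-- product formula for `ℚ`. -/
theorem sum_log_av_rat {x : ℚ} (hx : x ≠ 0) : ∑ᶠ v, Real.log (𝔳.av v (algebraMap ℚ Qb x)) = 0 := sorry

/-- product formula for an algebraic number one of whose powers is rational. -/
theorem sum_log_av_of_pow_rat {θ : Qb} (hθ : θ ≠ 0) (k : ℕ) (hk : 0 < k)
    (h : θ ^ k ∈ Set.range (algebraMap ℚ Qb)) : ∑ᶠ v, Real.log (𝔳.av v θ) = 0 := sorry

/-- product formula for Galois stable finite sets. -/
theorem sum_log_av_galStable (S : Finset Qb) (hS : ∀ σ : Qb ≃ₐ[ℚ] Qb, ∀ x ∈ S, σ x ∈ S)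
    (h0 : (0 : Qb) ∉ S) : ∑ᶠ v, ∑ x ∈ S, Real.log (𝔳.av v x) = 0 := sorry

/-! ## Block NULL -/

/-- affine chart lemma: polynomials without common zero are not simultaneously small on the
unit polydisc. -/
theorem chart_lower {σ ι : Type} [Fintype σ] (G : ι → MvPolynomial σ Qb)
    (h : ∀ x : σ → Qb, ∃ i, eval x (G i) ≠ 0) :
    ∃ (S : Finset ι) (γ : MConst), ∀ (v : Pl) (x : σ → Qb), (∀ j, 𝔳.av v (x j) ≤ 1) →
      ∃ i ∈ S, Real.exp (-(γ.c v)) ≤ 𝔳.av v (eval x (G i)) := sorry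

theorem chart_upper {σ : Type} [Fintype σ] (G : MvPolynomial σ Qb) :
    ∃ γ : MConst, ∀ (v : Pl) (x : σ → Qb), (∀ j, 𝔳.av v (x j) ≤ 1) →
      𝔳.av v (eval x G) ≤ Real.exp (γ.c v) := sorry

/-- bihomogeneous families without common zero on `ℙ × ℙ`. -/
theorem bihom_lower {α β ι : Type} [Fintype α] [Fintype β] (G : ι → MvPolynomial (α ⊕ β) Qb)
    (d₁ d₂ : ℕ)
    (hhom : ∀ (i : ι) (s u : Qb) (x : α → Qb) (y : β → Qb),
      eval (Sum.elim (s • x) (u • y)) (G i) = s ^ d₁ * u ^ d₂ * eval (Sum.elim x y) (G i))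
    (hnz : ∀ (x : α → Qb) (y : β → Qb), x ≠ 0 → y ≠ 0 → ∃ i, eval (Sum.elim x y) (G i) ≠ 0) :
    ∃ (S : Finset ι) (γ : MConst), ∀ (v : Pl) (x : α → Qb) (y : β → Qb), x ≠ 0 → y ≠ 0 →
      ∃ i ∈ S, vnorm 𝔳 v x ^ d₁ * vnorm 𝔳 v y ^ d₂ ≤
        Real.exp (γ.c v) * 𝔳.av v (eval (Sum.elim x y) (G i)) := sorry

theorem bihom_upper {α β : Type} [Fintype α] [Fintype β] (G : MvPolynomial (α ⊕ β) Qb)
    (d₁ d₂ : ℕ)
    (hhom : ∀ (s u : Qb) (x : α → Qb) (y : β → Qb),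
      eval (Sum.elim (s • x) (u • y)) G = s ^ d₁ * u ^ d₂ * eval (Sum.elim x y) G) :
    ∃ γ : MConst, ∀ (v : Pl) (x : α → Qb) (y : β → Qb), x ≠ 0 → y ≠ 0 →
      𝔳.av v (eval (Sum.elim x y) G) ≤
        Real.exp (γ.c v) * (vnorm 𝔳 v x ^ d₁ * vnorm 𝔳 v y ^ d₂) := sorry

/-- homogeneous families without common zero on `ℙ`. -/
theorem hom_lower {α ι : Type} [Fintype α] (G : ι → MvPolynomial α Qb) (d₁ : ℕ)
    (hhom : ∀ (i : ι) (s : Qb) (x : α → Qb), eval (s • x) (G i) = s ^ d₁ * eval x (G i))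
    (hnz : ∀ x : α → Qb, x ≠ 0 → ∃ i, eval x (G i) ≠ 0) :
    ∃ (S : Finset ι) (γ : MConst), ∀ (v : Pl) (x : α → Qb), x ≠ 0 →
      ∃ i ∈ S, vnorm 𝔳 v x ^ d₁ ≤ Real.exp (γ.c v) * 𝔳.av v (eval x (G i)) := sorry

theorem hom_upper {α : Type} [Fintype α] (G : MvPolynomial α Qb) (d₁ : ℕ)
    (hhom : ∀ (s : Qb) (x : α → Qb), eval (s • x) G = s ^ d₁ * eval x G) :
    ∃ γ : MConst, ∀ (v : Pl) (x : α → Qb),
      𝔳.av v (eval x G) ≤ Real.exp (γ.c v) * vnorm 𝔳 v x ^ d₁ := sorry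

/-- bilinear maps without zero divisors. -/
theorem bilin_lower {α β κ : Type} [Fintype α] [Fintype β] [Fintype κ]
    (B : (α → Qb) →ₗ[Qb] (β → Qb) →ₗ[Qb] (κ → Qb))
    (h : ∀ x y, B x y = 0 → x = 0 ∨ y = 0) :
    ∃ γ : MConst, ∀ (v : Pl) (x : α → Qb) (y : β → Qb),
      vnorm 𝔳 v x * vnorm 𝔳 v y ≤ Real.exp (γ.c v) * vnorm 𝔳 v (B x y) := sorry

theorem bilin_upper {α β κ : Type} [Fintype α] [Fintype β] [Fintype κ]
    (B : (α → Qb) →ₗ[Qb] (β → Qb) →ₗ[Qb] (κ → Qb)) :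
    ∃ γ : MConst, ∀ (v : Pl) (x : α → Qb) (y : β → Qb),
      vnorm 𝔳 v (B x y) ≤ Real.exp (γ.c v) * (vnorm 𝔳 v x * vnorm 𝔳 v y) := sorry

/-! ## Block LA (linear algebra, geometry of numbers) -/

/-- key local lemma: one can clear the coordinates of a maximal minor. -/
theorem wnorm_optMat_lower (v : Pl) {ι κ : Type} [Fintype ι] [Fintype κ]
    (X : Matrix ι κ Qb) (x : κ → Qb) :
    ∃ l : ι → Qb, wnorm 𝔳 v X * vnorm 𝔳 v (x - ∑ i, l i • X i) ≤ wnorm 𝔳 v (optMat X x) := sorry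

theorem wnorm_optMat_upper (v : Pl) {ι κ : Type} [Fintype ι] [Fintype κ]
    (X : Matrix ι κ Qb) (x : κ → Qb) (l : ι → Qb) :
    wnorm 𝔳 v (optMat X x) ≤
      ac v (Fintype.card ι + 1) * (wnorm 𝔳 v X * vnorm 𝔳 v (x - ∑ i, l i • X i)) := sorry

/-- contraction lemma. -/
theorem wnorm_contraction (v : Pl) {ι κ : Type} [Fintype ι] [Fintype κ]
    (X : Matrix ι κ Qb) (x f : κ → Qb) (hf : ∀ i, ∑ k, f k * X i k = 0) :
    𝔳.av v (∑ k, f k * x k) * wnorm 𝔳 v X ≤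
      ac v (Fintype.card κ) * (vnorm 𝔳 v f * wnorm 𝔳 v (optMat X x)) := sorry

theorem wnorm_reindex (v : Pl) {ι ι' κ : Type} [Fintype ι] [Fintype ι'] [Fintype κ]
    (e : ι' ≃ ι) (X : Matrix ι κ Qb) : wnorm 𝔳 v (X.submatrix e id) = wnorm 𝔳 v X := sorry

theorem subHt_eq_of_basis {ι κ : Type} [Fintype ι] [Fintype κ] (W : Submodule ℚ (κ → ℚ))
    (a : Module.Basis ι ℚ W) : subHt 𝔳 W = wht 𝔳 (ratMat fun i => ((a i : W) : κ → ℚ)) := sorry

/-- duality `H(W) = H(W^⊥)` for the space of rational solutions of a Galois stable system. -/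
theorem subHt_dual {ε κ : Type} [Fintype ε] [Fintype κ] (X : Matrix ε κ Qb)
    (hgal : ∀ σ : Qb ≃ₐ[ℚ] Qb, ∃ π : Equiv.Perm ε, ∀ i k, σ (X i k) = X (π i) k)
    (hind : LinearIndependent Qb (fun i => X i))
    (W : Submodule ℚ (κ → ℚ)) (hW : ∀ c, c ∈ W ↔ ∀ i, ∑ k, X i k * algebraMap ℚ Qb (c k) = 0) :
    Module.finrank ℚ W + Fintype.card ε = Fintype.card κ ∧ subHt 𝔳 W = wht 𝔳 X := sorry

/-- (P1), abstract form. -/
theorem subHt_map {α κ κ' : Type} [Fintype α] [Fintype κ] [Fintype κ'] (c : α → κ → κ' → ℚ)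
    (hnzd : ∀ (x : α → Qb) (y : κ → Qb),
      (∀ k', ∑ a, ∑ k, algebraMap ℚ Qb (c a k k') * x a * y k = 0) → x = 0 ∨ y = 0) :
    ∃ Cst : ℝ, ∀ s : α → ℚ, s ≠ 0 → ∀ W : Submodule ℚ (κ → ℚ),
      |subHt 𝔳 (W.map (mulMap c s)) - subHt 𝔳 W - Module.finrank ℚ W * ht 𝔳 (ratVec s)| ≤ Cst :=
  sorry

/-- Siegel's lemma (weak Bombieri-Vaaler). -/
theorem siegel {κ : Type} [Fintype κ] :
    ∃ Cst : ℝ, ∀ W : Submodule ℚ (κ → ℚ), W ≠ ⊥ → ∃ c ∈ W, c ≠ 0 ∧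
      Module.finrank ℚ W * ht 𝔳 (ratVec c) ≤ subHt 𝔳 W + Cst := sorry

/-! ## Block POLY -/

/-- coefficient vector of a polynomial of degree `≤ n`. -/
def cvec (n : ℕ) (f : Polynomial Qb) : Fin (n + 1) → Qb := fun i => f.coeff i

/-- roots versus coefficients, locally. -/
theorem log_vnorm_prod_X_sub_C (n : ℕ) :
    ∃ γ : MConst, ∀ (v : Pl) (s : Multiset Qb), s.card ≤ n →
      |Real.log (vnorm 𝔳 v (cvec n (s.map fun a => Polynomial.X - Polynomial.C a).prod)) -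
        (s.map fun a => Real.log (mx 𝔳 v a)).sum| ≤ γ.c v := sorry

/-- Gelfond's inequality, locally. -/
theorem log_vnorm_mul (n : ℕ) :
    ∃ γ : MConst, ∀ (v : Pl) (f g : Polynomial Qb), f ≠ 0 → g ≠ 0 → (f * g).natDegree ≤ n →
      |Real.log (vnorm 𝔳 v (cvec n (f * g))) - Real.log (vnorm 𝔳 v (cvec n f)) -
        Real.log (vnorm 𝔳 v (cvec n g))| ≤ γ.c v := sorry

/-- Northcott for rational polynomials. -/
theorem finite_monic_ht_le (n : ℕ) (B : ℝ) :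
    {f : Polynomial ℚ | f.Monic ∧ f.natDegree ≤ n ∧
      ht 𝔳 (cvec n (f.map (algebraMap ℚ Qb))) ≤ B}.Finite := sorry

end Fermat.Agent.S17.H.WIP
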