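import Fermat.Agent.S17.H.WIP.Top
import Fermat.Agent.S17.H.WIP.L0

/-! # S17/H blueprint: middle layer (weights, Apéry basis, norms, diagonal estimates)
Statements only (never import this file from a proof file). -/

set_option autoImplicit false

noncomputable section

open scoped Classical

namespace Fermat.Agent.S17.H.WIP

open Fermat.Agent.S17.H Polynomial

variable (𝔳 : AbsFam) {A : Type} [CommRing A] [Algebra Qb A] (C : WCurve A)

/-! ## Block SG: semigroup, weights, dimension counts (no Dedekind hypothesis) -/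

theorem rho_of_ge {i : ℕ} (hi : C.g ≤ i) : C.ρ i = i + C.g := sorry

theorem dim_add_g {n : ℕ} (hn : 2 * C.g ≤ n + 1) : C.dim n + C.g = n + 1 := sorry

theorem d_pos : 0 < C.d := sorry

theorem mem_V_iff (n : ℕ) (f : A) : f ∈ C.V n ↔ C.wt f ≤ n := sorry

theorem wt_b (i : ℕ) : C.wt (C.b i) = C.ρ i := sorry

theorem wt_mul {f h : A} (hf : f ≠ 0) (hh : h ≠ 0) : C.wt (f * h) = C.wt f + C.wt h := sorry

theorem lc_mul (f h : A) : C.lc (f * h) = C.lc f * C.lc h := sorry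

theorem lc_ne_zero {f : A} (hf : f ≠ 0) : C.lc f ≠ 0 := sorry

theorem isDomain (_C : WCurve A) : IsDomain A := sorry

theorem wt_add_le (f h : A) : C.wt (f + h) ≤ max (C.wt f) (C.wt h) := sorry

theorem isRat_mul {f h : A} (hf : C.IsRat f) (hh : C.IsRat h) : C.IsRat (f * h) := sorry

theorem isRat_add {f h : A} (hf : C.IsRat f) (hh : C.IsRat h) : C.IsRat (f + h) := sorry

/-- an ideal of codimension `e` is complemented by `V_n` as soon as `n ≥ e + 2g - 1`. -/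
theorem V_sup_ideal_eq_top (I : Ideal A) (e : ℕ) [Module.Finite Qb (A ⧸ I)]
    (he : Module.finrank Qb (A ⧸ I) = e) {n : ℕ} (hn : e + 2 * C.g ≤ n + 1) :
    C.V n ⊔ I.restrictScalars Qb = ⊤ := sorry

/-- evaluations at distinct points are independent on `V_n`, `n ≥ e + 2g - 1`. -/
theorem linearIndependent_evMat (E : Finset (Pt A)) {n : ℕ} (hn : E.card + 2 * C.g ≤ n + 1) :
    LinearIndependent Qb (fun P : E => C.evMat n E P) := sorry

theorem wnorm_evMat_pos (v : Pl) (E : Finset (Pt A)) {n : ℕ} (hn : E.card + 2 * C.g ≤ n + 1) :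
    0 < wnorm 𝔳 v (C.evMat n E) := sorry

theorem w2_pos (v : Pl) {m : ℕ} (hm : 2 * C.g + 1 ≤ m) {P Q : Pt A} (h : P ≠ Q) :
    0 < C.w2 𝔳 m v P Q := sorry

/-- points are determined by their coordinates; fibres of `t` are finite. -/
theorem fib_finite (α : Qb) : (C.fib α).Finite := sorry

/-! ## Block AP: `A` is free over `ℚ̄[t]` on the Apéry basis -/

/-- index of the smallest element of the semigroup in the residue class `j` modulo `d`. -/
def ap (j : Fin C.d) : ℕ := sInf {i | C.ρ i % C.d = j}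

theorem ap_spec (j : Fin C.d) : C.ρ (ap C j) % C.d = j := sorry

/-- Selmer's formula. -/
theorem sum_rho_ap : 2 * ∑ j, C.ρ (ap C j) = 2 * C.d * C.g + C.d * (C.d - 1) := sorry

/-- every element is uniquely `∑ p_j(t) y_j`, and the weight is the maximum of the weights. -/
theorem exists_unique_apery (f : A) : ∃! p : Fin C.d → Qb[X],
    f = ∑ j, aeval C.t (p j) * C.b (ap C j) := sorry

theorem wt_apery (p : Fin C.d → Qb[X]) (j : Fin C.d) (hj : p j ≠ 0) :
    C.d * (p j).natDegree + C.ρ (ap C j) ≤ C.wt (∑ j, aeval C.t (p j) * C.b (ap C j)) := sorry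

/-- the matrix of multiplication by `f` in the Apéry basis. -/
def mulMat (f : A) : Matrix (Fin C.d) (Fin C.d) Qb[X] :=
  fun i j => (exists_unique_apery C (f * C.b (ap C j))).choose i

/-- the norm `A → ℚ̄[T]`. -/
def Nm (f : A) : Qb[X] := (mulMat C f).det

/-! ## Block NP: the norm package -/

theorem Nm_mul (f h : A) : Nm C (f * h) = Nm C f * Nm C h := sorry

theorem Nm_aeval (p : Qb[X]) : Nm C (aeval C.t p) = p ^ C.d := sorry

theorem natDegree_Nm {f : A} (hf : f ≠ 0) : (Nm C f).natDegree = C.wt f := sorry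

theorem leadingCoeff_Nm {f : A} (hf : f ≠ 0) :
    (Nm C f).leadingCoeff = C.lc f ^ C.d ∨ (Nm C f).leadingCoeff = - C.lc f ^ C.d := sorry

theorem Nm_isRat {f : A} (hf : C.IsRat f) : ∃ p : ℚ[X], Nm C f = p.map (algebraMap ℚ Qb) := sorry

/-- the fibre of `t` over `β` as a multiset with multiplicities. -/
theorem exists_fibre (β : Qb) : ∃ F : Multiset (Pt A), F.card = C.d ∧ (∀ Q, Q ∈ F ↔ Q C.t = β) ∧
    ∀ f : A, (Nm C f).eval β = (F.map fun Q => Q f).prod := sorry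

/-- `f` divides its norm. -/
theorem dvd_aeval_Nm (f : A) : f ∣ aeval C.t (Nm C f) := sorry

/-- local comparison of `‖Nm f‖` and `‖f‖^d`. -/
theorem log_vnorm_Nm (n : ℕ) : ∃ γ : MConst, ∀ (v : Pl) (f : A), f ≠ 0 → f ∈ C.V n →
    |Real.log (vnorm 𝔳 v (cvec n (Nm C f))) - C.d * Real.log (vnorm 𝔳 v (crd C n f))| ≤ γ.c v :=
  sorry

/-- the polynomial `∏_{P ∈ E} (T - t(P))`. -/
def chi (E : Finset (Pt A)) : Qb[X] := ∏ P ∈ E, (X - Polynomial.C (P C.t))

/-- linear equivalence and norms. -/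
theorem Nm_mul_chi_of_equiv (E E' : Finset (Pt A)) {s s' : A} (hs : s ≠ 0) (hs' : s' ≠ 0)
    (h : Ideal.span {s'} * idealOf E = Ideal.span {s} * idealOf E') :
    ∃ c : Qb, c ≠ 0 ∧ Nm C s' * chi C E = Polynomial.C c * (Nm C s * chi C E') := sorry

/-- the residual polynomial of `f ∈ I(X)`. -/
theorem exists_residual (X : Finset (Pt A)) {f : A} (hf : f ≠ 0) (hX : f ∈ idealOf X) :
    ∃ R : Qb[X], R.Monic ∧ Nm C f = Polynomial.C (Nm C f).leadingCoeff * (chi C X * R) ∧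
      ∀ z ∈ idealOf X, f ∣ aeval C.t R * z := sorry

/-! ## Blocks X1, X2: the diagonal estimates -/

/-- (X1) cross fibres. -/
theorem cross_fibre_lower [IsDedekindDomain A] : ∃ m₀ : ℕ, ∀ m : ℕ, m₀ ≤ m →
    ∃ γ : MConst, ∀ (v : Pl) (α α' : Qb), α ≠ α' → ∀ F F' : Finset (Pt A),
      (∀ P, P ∈ F ↔ P C.t = α) → (∀ P, P ∈ F' ↔ P C.t = α') → F.card = C.d → F'.card = C.d →
      C.d * Real.log (𝔳.av v (α - α')) +
        ((C.d : ℝ) * ((m : ℝ) - 1)) * (Real.log (mx 𝔳 v α) + Real.log (mx 𝔳 v α')) ≤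
      ∑ P ∈ F, ∑ Q ∈ F', Real.log (C.w2 𝔳 m v P Q) + γ.c v := sorry

/-- (X2) same fibre; `Δ` is the discriminant of `A` over `ℚ̄[t]`. -/
theorem same_fibre_lower [IsDedekindDomain A] : ∃ Δ : ℚ[X], Δ ≠ 0 ∧
    (∀ α : Qb, aeval α Δ ≠ 0 → ∃ F : Finset (Pt A), (∀ P, P ∈ F ↔ P C.t = α) ∧ F.card = C.d) ∧
    ∃ m₀ : ℕ, ∀ m : ℕ, m₀ ≤ m → ∃ γ : MConst, ∀ (v : Pl) (α : Qb), aeval α Δ ≠ 0 → ∀ F : Finset (Pt A),
      (∀ P, P ∈ F ↔ P C.t = α) →
      Real.log (𝔳.av v (aeval α Δ)) +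
        2 * (((C.d : ℝ) - 1) * ((m : ℝ) - 1) - C.g) * Real.log (mx 𝔳 v α) ≤
      ∑ x ∈ F.offDiag, Real.log (C.w2 𝔳 m v x.1 x.2) + γ.c v := sorry

end Fermat.Agent.S17.H.WIP
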