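import Fermat.Agent.S17.H.ClassInv.Defs
import Fermat.Agent.S17.H.WIP.Mid

/-! # S17/H blueprint of node (G3) `Theta_class_invariant`: sub-nodes CI-1 ... CI-7
Statements only (never import this file from a proof file).  Sub-architect: helper129.
The assembly `Theta_class_invariant'` at the end is PROVED from the sub-nodes. -/

set_option autoImplicit false

noncomputable section

open scoped Classical

namespace Fermat.Agent.S17.H.WIP.CI

open Fermat.Agent.S17.H Fermat.Agent.S17.H.CI Polynomial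

variable (𝔳 : AbsFam) {A : Type} [CommRing A] [Algebra Qb A] (C : WCurve A)

/-! ## CI-1 `H/ClassInv/Coord.lean`: rational coordinates (needs only `H/Curve.lean`) -/

theorem lt_dim_iff (n i : ℕ) : i < C.dim n ↔ C.ρ i ≤ n := sorry

theorem repr_toA (n : ℕ) (c : Fin (C.dim n) → ℚ) (i : Fin (C.dim n)) :
    C.b.repr (toA C n c) i = algebraMap ℚ Qb (c i) := sorry

theorem repr_toA_of_le (n : ℕ) (c : Fin (C.dim n) → ℚ) {i : ℕ} (hi : C.dim n ≤ i) :
    C.b.repr (toA C n c) i = 0 := sorry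

theorem isRat_toA (n : ℕ) (c : Fin (C.dim n) → ℚ) : C.IsRat (toA C n c) := sorry

theorem toA_mem_V (n : ℕ) (c : Fin (C.dim n) → ℚ) : toA C n c ∈ C.V n := sorry

theorem toA_injective (n : ℕ) : Function.Injective (toA C n) := sorry

theorem toA_zero (n : ℕ) : toA C n 0 = 0 := sorry

theorem exists_toA_eq {n : ℕ} {f : A} (hf : C.IsRat f) (hV : f ∈ C.V n) :
    ∃ c : Fin (C.dim n) → ℚ, toA C n c = f := sorry

/-- i.e. `crd C n (toA C n c) = ratVec c` (`crd` unfolded so that the file does not need it). -/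
theorem crd_toA (n : ℕ) (c : Fin (C.dim n) → ℚ) :
    (fun i : Fin (C.dim n) => C.b.repr (toA C n c) i) = ratVec c := sorry

theorem mem_solSp_iff (n : ℕ) (E : Finset (Pt A)) (c : Fin (C.dim n) → ℚ) :
    c ∈ solSp C n E ↔ toA C n c ∈ idealOf E := sorry

/-- an element of `V_n` is the combination of the `b i`, `i < dim n`, given by its coordinates. -/
theorem eq_sum_crd {n : ℕ} {f : A} (hV : f ∈ C.V n) :
    f = ∑ i : Fin (C.dim n), C.b.repr f i • C.b i := sorry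

/-! ## CI-2 `H/ClassInv/Gal.lean`: the Galois action (needs only `H/Curve.lean`) -/

/-- a Galois stable set of points is permuted by every `σ`. -/
theorem exists_perm_of_galStable {E : Finset (Pt A)} (hE : C.GalStable E) (n : ℕ)
    (σ : Qb ≃ₐ[ℚ] Qb) :
    ∃ π : Equiv.Perm E, ∀ i k, σ (C.evMat n E i k) = C.evMat n E (π i) k := sorry

/-- i.e. `chi C E` has rational coefficients (`chi` unfolded). -/
theorem chi_isRat {E : Finset (Pt A)} (hE : C.GalStable E) :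
    ∃ p : ℚ[X], ∏ P ∈ E, (X - Polynomial.C (P C.t)) = p.map (algebraMap ℚ Qb) := sorry

/-- division of rational functions. -/
theorem isRat_of_mul [IsDomain A] {s x : A} (hs : C.IsRat s) (hs0 : s ≠ 0)
    (h : C.IsRat (s * x)) : C.IsRat x := sorry

/-! ## CI-3 `H/ClassInv/SolSp.lean`: `Φ_n(E)` is the height of the solution space -/

theorem finrank_solSp {E : Finset (Pt A)} (hE : C.GalStable E) {n : ℕ}
    (hn : E.card + 2 * C.g ≤ n + 1) :
    Module.finrank ℚ (solSp C n E) + E.card + C.g = n + 1 := sorry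

theorem subHt_solSp {E : Finset (Pt A)} (hE : C.GalStable E) {n : ℕ}
    (hn : E.card + 2 * C.g ≤ n + 1) : subHt 𝔳 (solSp C n E) = C.Phi 𝔳 n E := sorry

/-- there is a nonzero rational function in `V_n ∩ I(E)` as soon as `n ≥ e + 2 g - 1`, `n ≥ e + g`. -/
theorem exists_isRat_mem_idealOf {E : Finset (Pt A)} (hE : C.GalStable E) {n : ℕ}
    (hn : E.card + 2 * C.g ≤ n + 1) (hn' : E.card + C.g ≤ n) :
    ∃ f : A, C.IsRat f ∧ f ≠ 0 ∧ f ∈ C.V n ∧ f ∈ idealOf E := sorry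

/-! ## CI-4 `H/ClassInv/MulConst.lean`: structure constants -/

theorem toA_mulMap {μ n M : ℕ} (h : μ + n ≤ M) (s : Fin (C.dim μ) → ℚ) (y : Fin (C.dim n) → ℚ) :
    toA C M (mulMap (sc C μ n M) s y) = toA C μ s * toA C n y := sorry

theorem sc_nzd [IsDomain A] {μ n M : ℕ} (h : μ + n ≤ M) (x : Fin (C.dim μ) → Qb)
    (y : Fin (C.dim n) → Qb)
    (hxy : ∀ k', ∑ a, ∑ k, algebraMap ℚ Qb (sc C μ n M a k k') * x a * y k = 0) :
    x = 0 ∨ y = 0 := sorry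

/-! ## CI-5 `H/ClassInv/Image.lean`: weights and the equality of the two image subspaces -/

theorem natDegree_chi (E : Finset (Pt A)) : (chi C E).natDegree = E.card := sorry

theorem chi_ne_zero (E : Finset (Pt A)) : chi C E ≠ 0 := sorry

theorem wt_add_card_of_equiv (E E' : Finset (Pt A)) {s s' : A} (hs : s ≠ 0) (hs' : s' ≠ 0)
    (h : Ideal.span {s'} * idealOf E = Ideal.span {s} * idealOf E') :
    C.wt s' + E.card = C.wt s + E'.card := sorry

theorem map_solSp_eq [IsDomain A] {E E' : Finset (Pt A)} {μ n n' M : ℕ} (hn : μ + n ≤ M)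
    (hn' : μ + n' ≤ M) (hnn : n + E'.card = n' + E.card) (σ σ' : Fin (C.dim μ) → ℚ) (hσ : σ ≠ 0)
    (hσ' : σ' ≠ 0)
    (h : Ideal.span {toA C μ σ'} * idealOf E = Ideal.span {toA C μ σ} * idealOf E') :
    (solSp C n E).map (mulMap (sc C μ n M) σ') = (solSp C n' E').map (mulMap (sc C μ n' M) σ) :=
  sorry

/-! ## CI-6 `H/ClassInv/HtPoly.lean`, `H/ClassInv/HtDiff.lean`: global heights of polynomials -/

/-- summing a local estimate over all places. -/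
theorem abs_finsum_sub_le {f g : Pl → ℝ} (hf : (Function.support f).Finite)
    (hg : (Function.support g).Finite) (γ : MConst) (h : ∀ v, |f v - g v| ≤ γ.c v) :
    |∑ᶠ v, f v - ∑ᶠ v, g v| ≤ γ.tot := sorry

theorem ht_cvec_eq {n m : ℕ} {f : Qb[X]} (hn : f.natDegree ≤ n) (hm : f.natDegree ≤ m) :
    ht 𝔳 (cvec n f) = ht 𝔳 (cvec m f) := sorry

theorem ht_cvec_mul (n : ℕ) : ∃ Cst : ℝ, ∀ f g : Qb[X], f ≠ 0 → g ≠ 0 → (f * g).natDegree ≤ n →
    |ht 𝔳 (cvec n (f * g)) - ht 𝔳 (cvec n f) - ht 𝔳 (cvec n g)| ≤ Cst := sorry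

theorem ht_cvec_C_mul (n : ℕ) {c : ℚ} (hc : c ≠ 0) (f : Qb[X]) :
    ht 𝔳 (cvec n (Polynomial.C (algebraMap ℚ Qb c) * f)) = ht 𝔳 (cvec n f) := sorry

theorem ht_cvec_Nm (n : ℕ) : ∃ Cst : ℝ, ∀ f : A, f ≠ 0 → f ∈ C.V n →
    |ht 𝔳 (cvec n (Nm C f)) - C.d * ht 𝔳 (crd C n f)| ≤ Cst := sorry

theorem ht_cvec_chi (n : ℕ) : ∃ Cst : ℝ, ∀ E : Finset (Pt A), E.card ≤ n →
    |ht 𝔳 (cvec n (chi C E)) - C.d * C.hE 𝔳 E| ≤ Cst := sorry

/-- (d) of the blueprint. -/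
theorem ht_sub_ht (μ emax : ℕ) : ∃ Cst : ℝ, ∀ E E' : Finset (Pt A), C.GalStable E →
    C.GalStable E' → E.card ≤ emax → E'.card ≤ emax → ∀ s s' : A, C.IsRat s → C.IsRat s' →
    s ≠ 0 → s' ≠ 0 → s ∈ C.V μ → s' ∈ C.V μ →
    Ideal.span {s'} * idealOf E = Ideal.span {s} * idealOf E' →
    |ht 𝔳 (crd C μ s) - ht 𝔳 (crd C μ s') - (C.hE 𝔳 E - C.hE 𝔳 E')| ≤ Cst := sorry

/-! ## CI-7 `H/ClassInv/Reduce.lean`: reduction to bounded weights -/

theorem exists_bounded_equiv [IsDedekindDomain A] {E E' : Finset (Pt A)} (hE : C.GalStable E)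
    (hE' : C.GalStable E') {s s' : A} (hs : C.IsRat s) (hs' : C.IsRat s') (hs0 : s ≠ 0)
    (hs0' : s' ≠ 0) (h : Ideal.span {s'} * idealOf E = Ideal.span {s} * idealOf E') :
    ∃ s₁ s₁' : A, C.IsRat s₁ ∧ C.IsRat s₁' ∧ s₁ ≠ 0 ∧ s₁' ≠ 0 ∧ s₁ ∈ C.V (E.card + 2 * C.g) ∧
      s₁' ∈ C.V (E'.card + 2 * C.g) ∧
      Ideal.span {s₁'} * idealOf E = Ideal.span {s₁} * idealOf E' := sorry

/-! ## CI-8 `H/ClassInv.lean`: assembly (helper129) -/

theorem Theta_class_invariant' [IsDedekindDomain A] (w : ℕ) (hw : C.g + 1 ≤ w) (emax : ℕ) :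
    ∃ Cst : ℝ, ∀ E E' : Finset (Pt A), C.GalStable E → C.GalStable E' → E.card ≤ emax →
      E'.card ≤ emax → ∀ s s' : A, C.IsRat s → C.IsRat s' → s ≠ 0 → s' ≠ 0 →
      Ideal.span {s'} * idealOf E = Ideal.span {s} * idealOf E' →
      |C.Theta 𝔳 w E - C.Theta 𝔳 w E'| ≤ Cst := by
  obtain ⟨μ, hμ⟩ : ∃ μ, μ = emax + 2 * C.g := ⟨_, rfl⟩
  obtain ⟨nmax, hnmax⟩ : ∃ nmax, nmax = emax + C.g + w - 1 := ⟨_, rfl⟩
  obtain ⟨M, hM⟩ : ∃ M, M = μ + nmax := ⟨_, rfl⟩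
  -- the constants of `subHt_map`
  have hmap : ∀ n, n ≤ nmax → ∃ Cst : ℝ, ∀ s : Fin (C.dim μ) → ℚ, s ≠ 0 →
      ∀ W : Submodule ℚ (Fin (C.dim n) → ℚ),
      |subHt 𝔳 (W.map (mulMap (sc C μ n M) s)) - subHt 𝔳 W
        - Module.finrank ℚ W * ht 𝔳 (ratVec s)| ≤ Cst := fun n hn =>
    subHt_map 𝔳 (sc C μ n M) (fun x y h => sc_nzd C (by omega) x y h)
  choose! K hK using hmap
  obtain ⟨Kd, hKd⟩ := ht_sub_ht 𝔳 C μ emax
  have hKle : ∀ n, n ≤ nmax → K n ≤ ∑ n ∈ Finset.range (nmax + 1), |K n| := by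
    intro n hn
    refine (le_abs_self _).trans ?_
    exact Finset.single_le_sum (f := fun n => |K n|) (fun i _ => abs_nonneg _)
      (Finset.mem_range.mpr (by omega))
  refine ⟨2 * (∑ n ∈ Finset.range (nmax + 1), |K n|) + w * Kd, ?_⟩
  intro E E' hE hE' he he' s s' hs hs' hs0 hs0' h
  obtain ⟨s₁, s₁', r₁, r₁', z₁, z₁', v₁, v₁', h₁⟩ :=
    exists_bounded_equiv C hE hE' hs hs' hs0 hs0' h
  have v₁μ : s₁ ∈ C.V μ :=
    (mem_V_iff C μ s₁).mpr (le_trans ((mem_V_iff C _ s₁).mp v₁) (by omega))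
  have v₁μ' : s₁' ∈ C.V μ :=
    (mem_V_iff C μ s₁').mpr (le_trans ((mem_V_iff C _ s₁').mp v₁') (by omega))
  obtain ⟨σ, hσ⟩ := exists_toA_eq C r₁ v₁μ
  obtain ⟨σ', hσ'⟩ := exists_toA_eq C r₁' v₁μ'
  have hσ0 : σ ≠ 0 := by
    rintro rfl
    exact z₁ (by rw [← hσ, toA_zero])
  have hσ0' : σ' ≠ 0 := by
    rintro rfl
    exact z₁' (by rw [← hσ', toA_zero])
  obtain ⟨n, hn⟩ : ∃ n, n = E.card + C.g + w - 1 := ⟨_, rfl⟩
  obtain ⟨n', hn'⟩ : ∃ n', n' = E'.card + C.g + w - 1 := ⟨_, rfl⟩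
  have himg := map_solSp_eq C (E := E) (E' := E') (μ := μ) (n := n) (n' := n') (M := M)
    (by omega) (by omega) (by omega) σ σ' hσ0 hσ0' (by rw [hσ, hσ']; exact h₁)
  have k1 := hK n (by omega) σ' hσ0' (solSp C n E)
  have k2 := hK n' (by omega) σ hσ0 (solSp C n' E')
  have f1 : Module.finrank ℚ (solSp C n E) = w := by
    have := finrank_solSp C hE (n := n) (by omega)
    omega
  have f2 : Module.finrank ℚ (solSp C n' E') = w := by
    have := finrank_solSp C hE' (n := n') (by omega)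
    omega
  rw [himg, subHt_solSp 𝔳 C hE (by omega), f1] at k1
  rw [subHt_solSp 𝔳 C hE' (by omega), f2] at k2
  have kd := hKd E E' hE hE' he he' s₁ s₁' r₁ r₁' z₁ z₁' v₁μ v₁μ' h₁
  have c1 : crd C μ (toA C μ σ) = ratVec σ := crd_toA C μ σ
  have c2 : crd C μ (toA C μ σ') = ratVec σ' := crd_toA C μ σ'
  rw [← hσ, ← hσ', c1, c2] at kd
  have kn := hKle n (by omega)
  have kn' := hKle n' (by omega)
  unfold WCurve.Theta
  rw [← hn, ← hn']
  have hw0 : (0 : ℝ) ≤ w := Nat.cast_nonneg w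
  rw [abs_le] at k1 k2 kd ⊢
  have e1 := mul_le_mul_of_nonneg_left kd.1 hw0
  have e2 := mul_le_mul_of_nonneg_left kd.2 hw0
  constructor <;> nlinarith [k1.1, k1.2, k2.1, k2.2]

end Fermat.Agent.S17.H.WIP.CI
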