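import Fermat.Agent.S17.H.Curve

/-! # S17/H blueprint: the main nodes on an abstract curve `WCurve A`
Statements only (never import this file from a proof file). -/

set_option autoImplicit false

noncomputable section

open scoped Classical

namespace Fermat.Agent.S17.H.WIP

open Fermat.Agent.S17.H

variable (𝔳 : AbsFam) {A : Type} [CommRing A] [Algebra Qb A] (C : WCurve A)

/-- coordinates of an element of `V_n`. -/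
def crd (n : ℕ) (f : A) : Fin (C.dim n) → Qb := fun i => C.b.repr f i

/-- local version of `Ξ = Φ - Φ^naive`. -/
def XiLoc (m n : ℕ) (v : Pl) (E : Finset (Pt A)) : ℝ :=
  Real.log (wnorm 𝔳 v (C.evMat n E)) - n * ∑ P ∈ E, C.lam 𝔳 v P
    - (∑ x ∈ E.offDiag, C.gl 𝔳 m v x.1 x.2) / 2

/-! ## (X3) -/

theorem log_vnorm_ev_le (n : ℕ) :
    ∃ γ : MConst, ∀ (v : Pl) (P : Pt A),
      Real.log (vnorm 𝔳 v (C.ev n P)) ≤ n * C.lam 𝔳 v P + γ.c v := sorry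

/-! ## (M) monotonicity, local -/

theorem XiLoc_mono : ∃ m₀, ∀ m, m₀ ≤ m → C.d ∣ m → ∀ n, C.d ∣ n → ∀ z : ℕ, z * m ≤ n →
    ∃ γ : MConst, ∀ (v : Pl) (E Z : Finset (Pt A)), E ⊆ Z → Z.card ≤ z →
      XiLoc 𝔳 C m n v E ≤ XiLoc 𝔳 C m n v Z + γ.c v := sorry

/-! ## (T) test divisors.  `Δ` is a discriminant polynomial. -/

/-- `Z = t^* S`, all values in `S` being unramified. -/
def IsPullback (Δ : Polynomial ℚ) (Z : Finset (Pt A)) : Prop :=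
  C.GalStable Z ∧ (∀ P ∈ Z, Polynomial.aeval (P C.t) Δ ≠ 0) ∧
    ∀ P ∈ Z, ∀ Q : Pt A, Q C.t = P C.t → Q ∈ Z

theorem Phi_pullback_le [IsDedekindDomain A] : ∃ Δ : Polynomial ℚ, Δ ≠ 0 ∧
    ∀ (n z : ℕ), z + 2 * C.g ≤ n → ∃ Cst : ℝ, ∀ Z : Finset (Pt A), IsPullback C Δ Z → Z.card ≤ z →
      C.Phi 𝔳 n Z ≤ ((n : ℝ) - Z.card + 1 - C.g) * C.hE 𝔳 Z + Cst := sorry

theorem I2_pullback_le [IsDedekindDomain A] : ∃ Δ : Polynomial ℚ, Δ ≠ 0 ∧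
    ∃ m₀, ∀ m, m₀ ≤ m → ∀ z : ℕ, ∃ Cst : ℝ, ∀ Z : Finset (Pt A), IsPullback C Δ Z → Z.card ≤ z →
      C.I2 𝔳 m Z ≤ ((Z.card : ℝ) + C.g - 1) * C.hE 𝔳 Z + Cst := sorry

/-! ## (VF): `Θ = Q + O(1)` -/

theorem Theta_eq_Qd [IsDedekindDomain A] : ∃ Δ : Polynomial ℚ, Δ ≠ 0 ∧
    ∃ m₀, ∀ m, m₀ ≤ m → C.d ∣ m → ∀ (e w : ℕ), C.d ∣ e + C.g + w - 1 → 1 ≤ w →
      C.d * e * m ≤ e + C.g + w - 1 →
      ∃ Cst : ℝ, ∀ E : Finset (Pt A), C.GalStable E → E.card = e →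
        (∀ P ∈ E, Polynomial.aeval (P C.t) Δ ≠ 0) →
        |C.Theta 𝔳 w E - C.Qd 𝔳 m E| ≤ Cst := sorry

/-! ## (G3): class invariance of `Θ` -/

theorem Theta_class_invariant [IsDedekindDomain A] (w : ℕ) (hw : C.g + 1 ≤ w) (emax : ℕ) :
    ∃ Cst : ℝ, ∀ E E' : Finset (Pt A), C.GalStable E → C.GalStable E' → E.card ≤ emax →
      E'.card ≤ emax → ∀ s s' : A, C.IsRat s → C.IsRat s' → s ≠ 0 → s' ≠ 0 →
      Ideal.span {s'} * idealOf E = Ideal.span {s} * idealOf E' →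
      |C.Theta 𝔳 w E - C.Theta 𝔳 w E'| ≤ Cst := sorry

/-! ## (N): Siegel + Northcott -/

theorem exists_small_section (w : ℕ) (hw : C.g + 1 ≤ w) (emax : ℕ) :
    ∃ Cst : ℝ, ∀ X : Finset (Pt A), C.GalStable X → X.card ≤ emax →
      ∃ f : A, C.IsRat f ∧ f ≠ 0 ∧ f ∈ C.V (X.card + C.g + w - 1) ∧ f ∈ idealOf X ∧
        w * ht 𝔳 (crd C (X.card + C.g + w - 1) f) ≤ C.Phi 𝔳 (X.card + C.g + w - 1) X + Cst := sorry

/-- lower bound: `h(f) ≥ h(X) - C` for `f` vanishing on `X`. -/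
theorem hE_le_ht_of_mem_idealOf [IsDedekindDomain A] (n : ℕ) :
    ∃ Cst : ℝ, ∀ X : Finset (Pt A), C.GalStable X → ∀ f : A, C.IsRat f → f ≠ 0 → f ∈ C.V n →
      f ∈ idealOf X → C.hE 𝔳 X ≤ ht 𝔳 (crd C n f) + Cst := sorry

theorem northcott_ideals [IsDedekindDomain A] (n : ℕ) (B : ℝ) :
    ∃ 𝔉 : Set (Ideal A), 𝔉.Finite ∧ ∀ X : Finset (Pt A), C.GalStable X → ∀ f : A, C.IsRat f →
      f ≠ 0 → f ∈ C.V n → f ∈ idealOf X → ht 𝔳 (crd C n f) ≤ C.hE 𝔳 X + B →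
      ∃ 𝔢 ∈ 𝔉, 𝔢 ≠ ⊥ ∧ idealOf X * 𝔢 = Ideal.span {f} := sorry

/-! ## (HT): the final theorem of part H -/

theorem exists_height [IsDedekindDomain A] {G : Type} [AddCommGroup G]
    (cl : Finset (Pt A) → G) (r₀ : ℕ)
    (h_add : ∀ E E', C.GalStable E → C.GalStable E' → Disjoint E E' → cl (E ∪ E') = cl E + cl E')
    (h_iff : ∀ E E', C.GalStable E → C.GalStable E' → (cl E = cl E' ↔
      ∃ s s' : A, C.IsRat s ∧ C.IsRat s' ∧ s ≠ 0 ∧ s' ≠ 0 ∧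
        Ideal.span {s'} * idealOf E = Ideal.span {s} * idealOf E'))
    (h_move : ∀ r, r₀ ≤ r → ∀ (x : G) (T : Finset (Pt A)),
      ∃ E, C.GalStable E ∧ E.card = r ∧ Disjoint E T ∧ cl E = x) :
    ∃ h : G → ℝ, (∀ x, 0 ≤ h x) ∧
      (∃ Cst : ℝ, ∀ x y, |h (x + y) + h (x - y) - 2 * (h x + h y)| ≤ Cst) ∧
      ∀ B : ℝ, {x | h x ≤ B}.Finite := sorry

end Fermat.Agent.S17.H.WIP
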