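import Fermat.Statements.S17
import Fermat.Agent.GAL.KLStatement
import Fermat.Agent.S17.H.WIP.Top
import Fermat.Agent.S17.H.WIP.L0

/-! # S17 blueprint: glue (A), weak Mordell-Weil (W), final assembly -/

set_option autoImplicit false

noncomputable section

open scoped Classical

namespace Fermat.Agent.S17.WIP

open Fermat.Agent.S17.H ModularCurve AlgebraicCurve

/-- the Mordell-Weil group. -/
abbrev MW (N : ℕ) : Type :=
  ↥(FixedPoints.addSubgroup ((AlgebraicClosure ℚ) ≃ₐ[ℚ] (AlgebraicClosure ℚ)) (JZero N))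

/-- Part A (glue). -/
theorem glue (N : ℕ) [NeZero N] (hN : N.Prime) (hN5 : 5 ≤ N) :
    ∃ (A : Type) (_ : CommRing A) (_ : Algebra Qb A) (_ : IsDedekindDomain A) (C : WCurve A)
      (cl : Finset (Pt A) → MW N) (r₀ : ℕ),
      (∀ E E', C.GalStable E → C.GalStable E' → Disjoint E E' → cl (E ∪ E') = cl E + cl E') ∧
      (∀ E E', C.GalStable E → C.GalStable E' → (cl E = cl E' ↔
        ∃ s s' : A, C.IsRat s ∧ C.IsRat s' ∧ s ≠ 0 ∧ s' ≠ 0 ∧
          Ideal.span {s'} * idealOf E = Ideal.span {s} * idealOf E')) ∧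
      (∀ r, r₀ ≤ r → ∀ (x : MW N) (T : Finset (Pt A)),
        ∃ E, C.GalStable E ∧ E.card = r ∧ Disjoint E T ∧ cl E = x) := sorry

/-- Part W (weak Mordell-Weil). -/
theorem weak_mw (hKL : Fermat.Agent.GAL.KLStatement) (N : ℕ) [NeZero N] (hN : N.Prime)
    (hN5 : 5 ≤ N) : (nsmulAddMonoidHom (α := MW N) 2).range.FiniteIndex := sorry

theorem final (hKL : Fermat.Agent.GAL.KLStatement) (N : ℕ) [NeZero N] (hN : N.Prime)
    (hN5 : 5 ≤ N) : AddGroup.FG (MW N) := by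
  obtain ⟨A, _, _, _, C, cl, r₀, h1, h2, h3⟩ := glue N hN hN5
  obtain ⟨h, hpos, ⟨Cst, hpar⟩, hfin⟩ := H.WIP.exists_height C cl r₀ h1 h2 h3
  haveI : Northcott h := ⟨hfin⟩
  exact AddCommGroup.fg_of_descent' (weak_mw hKL N hN hN5) hpos hpar

end Fermat.Agent.S17.WIP
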