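/-
S17/H node (N): TEMPLATE of the final file H/Northcott.lean (owner helper270).
When the nodes land: copy to H/Northcott.lean, namespace Fermat.Agent.S17.H, replace the imports and
every `WIP.foo` by the real `foo`.  (This file only checks that the core theorems of
H/NorthcottCore.lean give the three blueprint statements verbatim.)
-/
import Fermat.Agent.S17.H.NorthcottCore
import Fermat.Agent.S17.H.WIP.Mid

set_option autoImplicit false
noncomputable section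
open scoped Classical

namespace Fermat.Agent.S17.H.WIP.NorthcottWrap
open Fermat.Agent.S17.H
open Fermat.Agent.S17.H.WIP (crd)
variable (𝔳 : AbsFam) {A : Type} [CommRing A] [Algebra Qb A] (C : WCurve A)

theorem exists_small_section (w : ℕ) (hw : C.g + 1 ≤ w) (emax : ℕ) :
    ∃ Cst : ℝ, ∀ X : Finset (Pt A), C.GalStable X → X.card ≤ emax →
      ∃ f : A, C.IsRat f ∧ f ≠ 0 ∧ f ∈ C.V (X.card + C.g + w - 1) ∧ f ∈ idealOf X ∧
        w * ht 𝔳 (crd C (X.card + C.g + w - 1) f) ≤ C.Phi 𝔳 (X.card + C.g + w - 1) X + Cst :=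
  exists_small_section_of_nodes 𝔳 C (fun _ _ => WIP.siegel 𝔳)
    (fun E _ hn => WIP.linearIndependent_evMat C E hn) (fun hn => WIP.dim_add_g C hn) w hw emax

theorem hE_le_ht_of_mem_idealOf [IsDedekindDomain A] (n : ℕ) :
    ∃ Cst : ℝ, ∀ X : Finset (Pt A), C.GalStable X → ∀ f : A, C.IsRat f → f ≠ 0 → f ∈ C.V n →
      f ∈ idealOf X → C.hE 𝔳 X ≤ ht 𝔳 (crd C n f) + Cst :=
  hE_le_ht_of_nodes 𝔳 C (WIP.Nm C) (WIP.d_pos C) (WIP.log_vnorm_mul 𝔳)
    (WIP.log_vnorm_prod_X_sub_C 𝔳) (WIP.log_vnorm_Nm 𝔳 C) (WIP.natDegree_Nm C)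
    (WIP.leadingCoeff_Nm C) (WIP.lc_ne_zero C) (WIP.Nm_isRat C) (WIP.exists_residual C) n

theorem northcott_ideals [IsDedekindDomain A] (n : ℕ) (B : ℝ) :
    ∃ 𝔉 : Set (Ideal A), 𝔉.Finite ∧ ∀ X : Finset (Pt A), C.GalStable X → ∀ f : A, C.IsRat f →
      f ≠ 0 → f ∈ C.V n → f ∈ idealOf X → ht 𝔳 (crd C n f) ≤ C.hE 𝔳 X + B →
      ∃ 𝔢 ∈ 𝔉, 𝔢 ≠ ⊥ ∧ idealOf X * 𝔢 = Ideal.span {f} :=
  northcott_ideals_of_nodes 𝔳 C (WIP.Nm C) (WIP.d_pos C) (WIP.log_vnorm_mul 𝔳)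
    (WIP.log_vnorm_prod_X_sub_C 𝔳) (WIP.log_vnorm_Nm 𝔳 C) (WIP.natDegree_Nm C)
    (WIP.leadingCoeff_Nm C) (WIP.lc_ne_zero C) (WIP.Nm_isRat C) (WIP.exists_residual C)
    (WIP.Nm_aeval C) n B

example : @exists_small_section = @WIP.exists_small_section := rfl
example : @hE_le_ht_of_mem_idealOf = @WIP.hE_le_ht_of_mem_idealOf := rfl
example : @northcott_ideals = @WIP.northcott_ideals := rfl
end Fermat.Agent.S17.H.WIP.NorthcottWrap
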